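import Fermat.Agent.LD8.Three
import Fermat.Agent.LA3b.UL

/-!
# The residue of a function with divisor `p D`, from information at level `4 N`
-/

set_option autoImplicit false
set_option maxHeartbeats 400000
set_option linter.unusedSectionVars false

noncomputable section

open HahnSeries ModularCurve AlgebraicCurve

attribute [-instance] Fermat.Agent.X0Places.ffField Fermat.Agent.X0Places.ffAlgebra

namespace Fermat.Agent.LD8

open Fermat.Agent.FunField Fermat.Agent.FunField.PlaceLemmas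
open Fermat.Agent.MzCusp (uL)
open Fermat.Agent.HeckeRed Fermat.Agent.ModPoly Fermat.Agent.ModDeg Fermat.Agent.Igusa
  Fermat.Agent.BadRed Fermat.Agent.LLu

local notation "Qb" => AlgebraicClosure ℚ

/-- places of `X₀(N)` in characteristic `3` at which all ramification indices of `X₀(4N) → X₀(N)`
are divisible by `3` ([A]). -/
def HypA (κ : Type*) [Field κ] [IsAlgClosed κ] (N : ℕ) [NeZero N] : Prop :=
  ∀ φ : modularFunctionFieldFullC κ N →ₐ[κ] modularFunctionFieldFullC κ (N * 4),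
    (∀ x, (φ x : LaurentSeries κ) = x) → ∀ v : Place κ (modularFunctionFieldFullC κ N),
    (∀ w : Place κ (modularFunctionFieldFullC κ (N * 4)), Degen.res φ w = v →
      3 ∣ Place.ramificationIndexAlong φ w) →
    0 < v.ord (HeckeRed.jF κ N) ∧ ¬ (3 : ℤ) ∣ v.ord (HeckeRed.jF κ N)

/-- elliptic places of order three are Eisenstein modulo three ([W]). -/
def HypW (κ : Type*) [Field κ] [IsAlgClosed κ] (N : ℕ) [NeZero N] : Prop :=
  ∀ (ℓ : ℕ) [Fact ℓ.Prime] [NeZero ℓ], ℓ ≠ 3 → ¬ ℓ ∣ N →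
    ∀ v : Place κ (modularFunctionFieldFullC κ N), 0 < v.ord (HeckeRed.jF κ N) →
      ¬ (3 : ℤ) ∣ v.ord (HeckeRed.jF κ N) →
      ∀ w : Place κ (modularFunctionFieldFullC κ N),
        (3 : ℤ) ∣ Divisor.correspondence (beta1 κ N ℓ) (alpha1 κ N ℓ)
          (HeckeRed.isIntegral_of_isFF (beta1 κ N ℓ)) (HeckeRed.isIntegral_of_isFF (alpha1 κ N ℓ))
          (Finsupp.single v 1) w -
            ((ℓ : ℤ) + 1) * (Finsupp.single v (1 : ℤ) : Divisor κ _) w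

section Eis

variable {κ : Type*} [Field κ] [IsAlgClosed κ] (N : ℕ) [NeZero N]

/-- the Eisenstein congruence from places of type [W] -/
theorem eis_of_bad {ℓ : ℕ} [Fact ℓ.Prime] [NeZero ℓ] (hℓ3 : ℓ ≠ 3) (hℓN : ¬ ℓ ∣ N)
    (hW : HypW κ N) {fb hb : modularFunctionFieldFullC κ N} {a : ℤ}
    (hbad : ∀ v : Place κ (modularFunctionFieldFullC κ N), ¬ (3 : ℤ) ∣ v.ord fb →
      0 < v.ord (HeckeRed.jF κ N) ∧ ¬ (3 : ℤ) ∣ v.ord (HeckeRed.jF κ N))
    (hf : Divisor.correspondence (beta1 κ N ℓ) (alpha1 κ N ℓ)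
      (HeckeRed.isIntegral_of_isFF (beta1 κ N ℓ)) (HeckeRed.isIntegral_of_isFF (alpha1 κ N ℓ))
      (divOf fb) = a • (divOf fb : Divisor κ (modularFunctionFieldFullC κ N)) + (3 : ℤ) • divOf hb)
    {v₀ : Place κ (modularFunctionFieldFullC κ N)} (hv₀ : ¬ (3 : ℤ) ∣ v₀.ord fb) :
    (3 : ℤ) ∣ a - (ℓ + 1) := by
  have h5 := dvd_of_eis (l := ℓ) (alpha1 κ N ℓ) (beta1 κ N ℓ)
    (HeckeRed.isIntegral_of_isFF (beta1 κ N ℓ)) (HeckeRed.isIntegral_of_isFF (alpha1 κ N ℓ))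
    (n := (3 : ℤ)) (D := divOf fb) (fun v hv w => by
      rw [divOf_apply] at hv
      obtain ⟨hv1, hv2⟩ := hbad v hv
      exact hW ℓ hℓ3 hℓN v hv1 hv2 w) v₀
  rw [hf, Finsupp.add_apply, Finsupp.smul_apply, Finsupp.smul_apply, divOf_apply,
    divOf_apply, smul_eq_mul, smul_eq_mul] at h5
  have h7 : (3 : ℤ) ∣ v₀.ord fb * (a - (ℓ + 1)) := by
    have e : v₀.ord fb * (a - ((ℓ : ℤ) + 1)) =
      (a * v₀.ord fb + 3 * v₀.ord hb - ((ℓ : ℤ) + 1) * v₀.ord fb) - 3 * v₀.ord hb := by ring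
    rw [e]
    exact dvd_sub h5 (Dvd.intro _ rfl)
  exact (Int.prime_three.dvd_or_dvd h7).resolve_left hv₀

/-- the Eisenstein congruence from the unit -/
theorem eis_of_unit {ℓ : ℕ} [Fact ℓ.Prime] [NeZero ℓ]
    {fb hb ub : modularFunctionFieldFullC κ N} {a j₀ : ℤ} (hj₀ : ¬ (3 : ℤ) ∣ j₀)
    (hg : ∀ v : Place κ (modularFunctionFieldFullC κ N), 0 ≤ v.ord (HeckeRed.jF κ N) →
      (3 : ℤ) ∣ v.ord ub ∧ (0 < v.ord (HeckeRed.jF κ N) → ¬ (3 : ℤ) ∣ v.ord ub / 3) ∧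
      (3 : ℤ) ∣ v.ord fb - (-j₀) * (v.ord ub / 3))
    (hf : Divisor.correspondence (beta1 κ N ℓ) (alpha1 κ N ℓ)
      (HeckeRed.isIntegral_of_isFF (beta1 κ N ℓ)) (HeckeRed.isIntegral_of_isFF (alpha1 κ N ℓ))
      (divOf fb) = a • (divOf fb : Divisor κ (modularFunctionFieldFullC κ N)) + (3 : ℤ) • divOf hb)
    (hu : Divisor.correspondence (beta1 κ N ℓ) (alpha1 κ N ℓ)
      (HeckeRed.isIntegral_of_isFF (beta1 κ N ℓ)) (HeckeRed.isIntegral_of_isFF (alpha1 κ N ℓ))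
      (divOf ub) = ((ℓ : ℤ) + 1) • (divOf ub : Divisor κ (modularFunctionFieldFullC κ N))) :
    (3 : ℤ) ∣ a - (ℓ + 1) := by
  let G : Divisor κ (modularFunctionFieldFullC κ N) :=
    (divOf ub).mapRange (fun z => z / 3) (by simp)
  have hGv : ∀ v, G v = v.ord ub / 3 := fun v => by
    show (divOf ub).mapRange (fun z : ℤ => z / 3) (by simp) v = _
    rw [Finsupp.mapRange_apply, divOf_apply]
  have hGn : ∀ v : Place κ (modularFunctionFieldFullC κ N), 0 ≤ v.ord (HeckeRed.jF κ N) →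
      v.ord ub = 3 * G v := fun v hv => by
    rw [hGv, Int.mul_ediv_cancel' (hg v hv).1]
  obtain ⟨v₀, hv₀⟩ := exists_place_ord_pos (HeckeRed.transcendental_jF (K := κ) N)
  have h5 := dvd_of_hecke' (alpha1 κ N ℓ) (beta1 κ N ℓ) (coe_alpha1 κ N ℓ) (coe_beta1 κ N ℓ)
    (HeckeRed.isIntegral_of_isFF _) (HeckeRed.isIntegral_of_isFF _) (j := HeckeRed.jF κ N) rfl
    Nat.prime_three (G := G) (j₀ := -j₀) (fun v hv => by rw [hGv]; exact (hg v hv).2.2) hf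
    (fun v hv => correspondence_div (alpha1 κ N ℓ) (beta1 κ N ℓ) (coe_alpha1 κ N ℓ)
      (coe_beta1 κ N ℓ) (HeckeRed.isIntegral_of_isFF _) (HeckeRed.isIntegral_of_isFF _)
      (j := HeckeRed.jF κ N) rfl (n := 3) (by norm_num) hGn hu v hv) v₀ hv₀.le
  have h7 : ¬ (3 : ℤ) ∣ G v₀ := by rw [hGv]; exact (hg v₀ hv₀.le).2.1 hv₀
  rcases Int.prime_three.dvd_or_dvd h5 with h8 | h8
  · rcases Int.prime_three.dvd_or_dvd h8 with h9 | h9
    · exact absurd (dvd_neg.mp h9) hj₀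
    · exact h9
  · exact absurd h8 h7

end Eis

variable (A : ValuationSubring (AlgebraicClosure ℚ)) {κ : Type*} [Field κ] [IsAlgClosed κ]
  (π : A →+* κ) [IsLocalHom π] (hπ : Function.Surjective π) (harch : ArchA π)
  (N p : ℕ) [hp : Fact p.Prime] [hN : NeZero N] [CharP κ p] (hpN : ¬ p ∣ N)

include hπ harch hpN in
/-- the Hecke relation on the residue -/
theorem key_res {E : IntermediateField Qb (LaurentSeries Qb)} [IsFF Qb E]
    (hE : E = modularFunctionFieldFullC Qb (N * p)) {D : Divisor Qb E} {f : E}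
    (hf : (f : LaurentSeries Qb) ∈ gaussRing A π) (hfD : (divOf f : Divisor Qb E) = (p : ℤ) • D)
    (fb : modularFunctionFieldFullC κ N)
    (hfb : (fb : LaurentSeries κ) = gaussRes A π ⟨f, hf⟩) (hfb0 : fb ≠ 0)
    (ℓ : ℕ) [hℓ : Fact ℓ.Prime] [hℓ' : NeZero ℓ] (hℓp : ℓ ≠ p) {a : ℤ}
    (hT : ∃ (E' : IntermediateField Qb (LaurentSeries Qb)) (_ : IsFF Qb E')
        (_ : E' = modularFunctionFieldFullC Qb (N * p * ℓ)) (α β : E →ₐ[Qb] E')
        (hβi : β.toRingHom.IsIntegral) (hαi : α.toRingHom.IsIntegral),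
        (∀ x, (α x : LaurentSeries Qb) = x) ∧
        (∀ x, (β x : LaurentSeries Qb) = qExpand Qb ℓ (x : LaurentSeries Qb)) ∧
        ∃ h : E, h ≠ 0 ∧ Divisor.correspondence β α hβi hαi D = a • D + divOf h) :
    ∃ hb : modularFunctionFieldFullC κ N, hb ≠ 0 ∧
        Divisor.correspondence (beta1 κ N ℓ) (alpha1 κ N ℓ) (HeckeRed.isIntegral_of_isFF (beta1 κ N ℓ))
          (HeckeRed.isIntegral_of_isFF (alpha1 κ N ℓ)) (divOf fb) =
          a • (divOf fb : Divisor κ (modularFunctionFieldFullC κ N)) + (p : ℤ) • divOf hb := by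
  obtain ⟨E', iE', hE', α, β, hβi, hαi, hα, hβ, h, hh, hTD⟩ := hT
  refine hres A π hπ harch N p hpN hℓp ?_ hE hE' rfl rfl α β (alpha1 κ N ℓ)
    (beta1 κ N ℓ) hα hβ (coe_alpha1 κ N ℓ) (coe_beta1 κ N ℓ) hβi hαi
    (HeckeRed.isIntegral_of_isFF _) (HeckeRed.isIntegral_of_isFF _) hf fb hfb hfb0 hfD hh hTD
  rw [Ne, CharP.cast_eq_zero_iff κ p, hp.out.dvd_mul]
  rintro (h | h)
  · exact hpN h
  · exact hℓp ((Nat.prime_dvd_prime_iff_eq hp.out hℓ.out).mp h).symm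

include hπ harch hpN in
/-- **[D2]** -/
theorem efin₂ (hp2 : p ≠ 2) {E : IntermediateField Qb (LaurentSeries Qb)} [IsFF Qb E]
    (hE : E = modularFunctionFieldFullC Qb (N * p)) {D : Divisor Qb E} {f : E}
    (hf : (f : LaurentSeries Qb) ∈ gaussRing A π) (hfD : (divOf f : Divisor Qb E) = (p : ℤ) • D)
    (fb ub : modularFunctionFieldFullC κ N)
    (hfb : (fb : LaurentSeries κ) = gaussRes A π ⟨f, hf⟩) (hfb0 : fb ≠ 0)
    (hnp : ∀ (c : κ) (b : modularFunctionFieldFullC κ N), fb ≠ c • b ^ p)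
    (hub : (ub : LaurentSeries κ) = uL κ p) {j₀ : ℤ}
    (φ : modularFunctionFieldFullC κ N →ₐ[κ] modularFunctionFieldFullC κ (N * 4))
    (hφ : ∀ x, (φ x : LaurentSeries κ) = x) (vb : modularFunctionFieldFullC κ (N * 4))
    (h1 : ∀ v : Place κ (modularFunctionFieldFullC κ (N * 4)),
      0 ≤ v.ord (HeckeRed.jF κ (N * 4)) → (p : ℤ) ∣ v.ord (φ fb) - j₀ * v.ord vb)
    (h2 : ∀ v : Place κ (modularFunctionFieldFullC κ (N * 4)),
      v.ord (HeckeRed.jF κ (N * 4)) < 0 → (p : ℤ) ∣ v.ord (φ fb))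
    (h6 : ∀ v : Place κ (modularFunctionFieldFullC κ (N * 4)),
      0 ≤ v.ord (HeckeRed.jF κ (N * 4)) → v.ord (φ ub) = 6 * v.ord vb)
    (hvb : ∀ v : Place κ (modularFunctionFieldFullC κ (N * 4)),
      0 ≤ v.ord (HeckeRed.jF κ (N * 4)) → v.ord vb = 0 ∨ (1 ≤ v.ord vb ∧ v.ord vb ≤ 2))
    (hdeg : finrankAlong κ φ = 4 ∨ finrankAlong κ φ = 6)
    (hA : p = 3 → finrankAlong κ φ = 6 → HypA κ N) (hW : p = 3 → HypW κ N)
    (S : Set ℕ) (hpS : p ∈ S) (hS : ∀ q : ℕ, q.Prime → q ∣ N → q ∈ S) (a : ℕ → ℤ)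
    (hT : ∀ ℓ : ℕ, ∀ hℓ : ℓ.Prime, ℓ ∉ S → haveI : NeZero ℓ := ⟨hℓ.ne_zero⟩
      ∃ (E' : IntermediateField Qb (LaurentSeries Qb)) (_ : IsFF Qb E')
        (_ : E' = modularFunctionFieldFullC Qb (N * p * ℓ)) (α β : E →ₐ[Qb] E')
        (hβi : β.toRingHom.IsIntegral) (hαi : α.toRingHom.IsIntegral),
        (∀ x, (α x : LaurentSeries Qb) = x) ∧
        (∀ x, (β x : LaurentSeries Qb) = qExpand Qb ℓ (x : LaurentSeries Qb)) ∧
        ∃ h : E, h ≠ 0 ∧ Divisor.correspondence β α hβi hαi D = a ℓ • D + divOf h) :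
    (∀ ℓ : ℕ, ℓ.Prime → ℓ ∉ S → (p : ℤ) ∣ a ℓ - (ℓ + 1)) ∨
      ∃ c : Pic0 κ (modularFunctionFieldFullC κ N), c ≠ 0 ∧ p • c = 0 ∧
        ∀ (ℓ : ℕ) (_ : ℓ.Prime) [NeZero ℓ], ¬ ℓ ∣ N → ℓ ∉ S → PIC.heckeC κ N ℓ c = a ℓ • c := by
  have ejF : φ (HeckeRed.jF κ N) = HeckeRed.jF κ (N * 4) :=
    Subtype.ext ((hφ _).trans rfl)
  rw [← ejF] at h1 h2 h6 hvb
  by_cases h3 : p = 3
  · -- `p = 3`
    have e3 : (p : ℤ) = 3 := by rw [h3]; rfl
    have hℓ : ∀ ℓ : ℕ, ℓ.Prime → ℓ ∉ S → ℓ ≠ p ∧ ℓ ≠ 3 ∧ ¬ ℓ ∣ N := fun ℓ hℓ hℓS =>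
      ⟨fun h => hℓS (h ▸ hpS), fun h => hℓS ((h.trans h3.symm) ▸ hpS), fun h => hℓS (hS ℓ hℓ h)⟩
    have hub3 : ub = HeckeRed.jF κ N ^ 2 := by
      subst h3
      apply Subtype.ext
      rw [hub, LA3b.uL_three_eq]
      rfl
    have hubo : ∀ v : Place κ (modularFunctionFieldFullC κ N),
        v.ord ub = 2 * v.ord (HeckeRed.jF κ N) := fun v => by
      rw [hub3, ord_pow]; norm_num
    by_cases hj : (3 : ℤ) ∣ j₀
    · by_cases hex : ∃ v : Place κ (modularFunctionFieldFullC κ N), ¬ (3 : ℤ) ∣ v.ord fb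
      · left
        obtain ⟨v₀, hv₀⟩ := hex
        have hbad := descent_three_bad φ hdeg (fb := fb) (j := HeckeRed.jF κ N)
          (fun h6' => hA h3 h6' φ hφ) (fun w => by
            rw [← e3]
            rcases lt_or_ge (w.ord (φ (HeckeRed.jF κ N))) 0 with hw | hw
            · exact h2 w hw
            · refine (dvd_sub_left ?_).mp (h1 w hw)
              rw [e3]
              exact hj.mul_right _)
        intro ℓ hℓ' hℓS
        obtain ⟨h4, h5, h6⟩ := hℓ ℓ hℓ' hℓS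
        have hne : NeZero ℓ := ⟨hℓ'.ne_zero⟩
        have hfact : Fact ℓ.Prime := ⟨hℓ'⟩
        obtain ⟨hb, -, h7⟩ := key_res A π hπ harch N p hpN hE hf hfD fb hfb hfb0 ℓ h4 (hT ℓ hℓ' hℓS)
        rw [e3] at h7 ⊢
        exact eis_of_bad N h5 h6 (hW h3) hbad h7 hv₀
      · push Not at hex
        rw [← e3] at hex
        exact LLw.efin A π hπ harch N p hpN hE hf hfD fb ub hfb hfb0 hnp hub (j₀ := 0)
          (fun v _ => by rw [zero_mul, sub_zero]; exact hex v) (fun v _ => hex v) S hpS hS a hT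
    · left
      have hg := descent_three_unit φ hdeg (fb := fb) (ub := ub) (vb := vb)
        (j := HeckeRed.jF κ N) (fun h6' => hA h3 h6' φ hφ) hj hubo
        (fun w hw => by rw [← e3]; exact h1 w hw) h6 hvb
      let ι : Qb →+* ℂ := (IsAlgClosed.lift : Qb →ₐ[ℚ] ℂ)
      intro ℓ hℓ' hℓS
      obtain ⟨h4, h5, h6⟩ := hℓ ℓ hℓ' hℓS
      have hne : NeZero ℓ := ⟨hℓ'.ne_zero⟩
      have hfact : Fact ℓ.Prime := ⟨hℓ'⟩
      obtain ⟨hb, -, h7⟩ := key_res A π hπ harch N p hpN hE hf hfD fb hfb hfb0 ℓ h4 (hT ℓ hℓ' hℓS)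
      have hu := correspondence_ub ι A π hπ harch N p hpN h4 h6 rfl rfl (alpha1 κ N ℓ)
        (beta1 κ N ℓ) (coe_alpha1 κ N ℓ) (coe_beta1 κ N ℓ) (HeckeRed.isIntegral_of_isFF _)
        (HeckeRed.isIntegral_of_isFF _) ub hub
      rw [e3] at h7 ⊢
      exact eis_of_unit N hj hg h7 hu
  · -- `p ≥ 5`
    obtain ⟨j₁, h4, h5⟩ := descent_five φ hp.out hp2 h3 hdeg h1 h2 h6
    exact LLw.efin A π hπ harch N p hpN hE hf hfD fb ub hfb hfb0 hnp hub (j₀ := j₁) h4 h5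
      S hpS hS a hT

end Fermat.Agent.LD8

end
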