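import Fermat.Agent.LLu.Efin
import Fermat.Agent.Degen.Abs

/-!
# Descent of divisibility along a covering, and Hecke relations
-/

set_option autoImplicit false
set_option maxHeartbeats 400000
set_option linter.unusedSectionVars false

noncomputable section

open HahnSeries ModularCurve AlgebraicCurve

namespace Fermat.Agent.LD8

open Fermat.Agent.FunField Fermat.Agent.FunField.PlaceLemmas
open Fermat.Agent.HeckeRed Fermat.Agent.ModPoly Fermat.Agent.ModDeg Fermat.Agent.Igusa
  Fermat.Agent.BadRed Fermat.Agent.LLu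

section Cover

variable {K F F' : Type*} [Field K] [IsAlgClosed K] [Field F] [Field F']
  [Algebra K F] [Algebra K F'] [IsFF K F] [IsFF K F']

/-- a divisor all of whose coefficients are divisible by `n` is `n` times a divisor -/
theorem exists_smul_of_dvd {n : ℤ} {D : Divisor K F} (h : ∀ v, n ∣ D v) :
    ∃ B : Divisor K F, D = n • B := by
  classical
  refine ⟨D.mapRange (fun z => z / n) (by simp), ?_⟩
  ext v
  rw [Finsupp.smul_apply, Finsupp.mapRange_apply, smul_eq_mul, Int.mul_ediv_cancel' (h v)]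

/-- a place above whose ramification index is not divisible by `p` -/
theorem exists_res_not_dvd (φ : F →ₐ[K] F') {p : ℕ} (h : ¬ p ∣ finrankAlong K φ)
    (v : Place K F) : ∃ w : Place K F', Degen.res φ w = v ∧
      ¬ p ∣ Place.ramificationIndexAlong φ w := by
  classical
  by_contra hcon
  push Not at hcon
  obtain ⟨B, hB⟩ := exists_smul_of_dvd (n := (p : ℤ))
    (D := Degen.pull φ (Finsupp.single v (1 : ℤ))) (fun w => by
      rw [Degen.pull_apply]
      by_cases hw : Degen.res φ w = v
      · exact (Int.natCast_dvd_natCast.mpr (hcon w hw)).mul_right _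
      · rw [Finsupp.single_eq_of_ne hw, mul_zero]
        exact dvd_zero _)
  have h1 := Degen.degree_pull φ (Finsupp.single v (1 : ℤ))
  rw [hB, map_zsmul, Divisor.degree_single, Deuring.deg_eq_one, smul_eq_mul] at h1
  have h2 : (p : ℤ) ∣ (finrankAlong K φ : ℤ) := by
    have h3 : (finrankAlong K φ : ℤ) * (1 * ((1 : ℕ) : ℤ)) = finrankAlong K φ := by
      push_cast; ring
    rw [← h3, ← h1]
    exact Dvd.intro _ rfl
  exact h (Int.natCast_dvd_natCast.mp h2)

end Cover

section Hecke

variable {K : Type*} [Field K] [IsAlgClosed K] {E E' : IntermediateField K (LaurentSeries K)}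
  [IsFF K E] [IsFF K E'] {l : ℕ} [hl : Fact l.Prime]
  (α β : E →ₐ[K] E') (hα : ∀ x, (α x : LaurentSeries K) = x)
  (hβ : ∀ x, (β x : LaurentSeries K) = qExpand K l (x : LaurentSeries K))
  (hβi : β.toRingHom.IsIntegral) (hαi : α.toRingHom.IsIntegral)
  {j : E} (hj : (j : LaurentSeries K) = jqModC K)

include hα hβ hj in
/-- the Hecke relation for `div(u)/n` away from the cusps -/
theorem correspondence_div {n : ℤ} (hn : n ≠ 0) {u : E} {G : Divisor K E}
    (hG : ∀ v : Place K E, 0 ≤ v.ord j → v.ord u = n * G v)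
    (hu : Divisor.correspondence β α hβi hαi (divOf u) =
      ((l : ℤ) + 1) • (divOf u : Divisor K E)) (v : Place K E) (hv : 0 ≤ v.ord j) :
    Divisor.correspondence β α hβi hαi G v = ((l : ℤ) + 1) * G v := by
  have h1 := correspondence_cusp α β hα hβ hβi hαi hj (divOf u - n • G) (fun v hv => by
    rw [Finsupp.sub_apply, Finsupp.smul_apply, smul_eq_mul, divOf_apply, hG v hv, sub_self]) v hv
  rw [map_sub, map_zsmul, hu, Finsupp.sub_apply, Finsupp.smul_apply, Finsupp.smul_apply,
    smul_eq_mul, smul_eq_mul, divOf_apply, hG v hv] at h1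
  have h2 : n * (Divisor.correspondence β α hβi hαi G v - ((l : ℤ) + 1) * G v) = 0 := by
    linear_combination -h1
  exact sub_eq_zero.mp ((mul_eq_zero.mp h2).resolve_left hn)

include hα hβ hj in
/-- the congruence of [EFIN], for a divisor which is Eisenstein away from the cusps. -/
theorem dvd_of_hecke' {p : ℕ} (hp : p.Prime) {fb hb : E} {G : Divisor K E} {j₀ a : ℤ}
    (h1 : ∀ v : Place K E, 0 ≤ v.ord j → (p : ℤ) ∣ v.ord fb - j₀ * G v)
    (hf : Divisor.correspondence β α hβi hαi (divOf fb) =
      a • (divOf fb : Divisor K E) + (p : ℤ) • divOf hb)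
    (hu : ∀ v : Place K E, 0 ≤ v.ord j →
      Divisor.correspondence β α hβi hαi G v = ((l : ℤ) + 1) * G v)
    (v : Place K E) (hv : 0 ≤ v.ord j) :
    (p : ℤ) ∣ j₀ * (a - ((l : ℤ) + 1)) * G v := by
  have hpZ : Prime (p : ℤ) := Nat.prime_iff_prime_int.mp hp
  have h4 := dvd_correspondence α β hα hβ hβi hαi hj hpZ.ne_zero (divOf fb - j₀ • G)
    (fun w hw => by
      rw [Finsupp.sub_apply, Finsupp.smul_apply, divOf_apply, smul_eq_mul]
      exact h1 w hw) v hv
  rw [map_sub, map_zsmul, hf, Finsupp.sub_apply, Finsupp.add_apply, Finsupp.smul_apply,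
    Finsupp.smul_apply, Finsupp.smul_apply, hu v hv, divOf_apply,
    divOf_apply, smul_eq_mul, smul_eq_mul, smul_eq_mul] at h4
  have h5 := h1 v hv
  have e : j₀ * (a - ((l : ℤ) + 1)) * G v =
      (a * v.ord fb + p * v.ord hb - j₀ * (((l : ℤ) + 1) * G v)) -
        a * (v.ord fb - j₀ * G v) - p * v.ord hb := by ring
  rw [e]
  exact dvd_sub (dvd_sub h4 (h5.mul_left _)) (Dvd.intro _ rfl)

/-- a divisor supported, modulo `n`, at places which are Eisenstein modulo `n` -/
theorem dvd_of_eis {n : ℤ} {D : Divisor K E}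
    (hD : ∀ v : Place K E, ¬ n ∣ D v → ∀ w : Place K E,
      n ∣ Divisor.correspondence β α hβi hαi (Finsupp.single v 1) w -
        ((l : ℤ) + 1) * (Finsupp.single v (1 : ℤ) : Divisor K E) w) (w : Place K E) :
    n ∣ Divisor.correspondence β α hβi hαi D w - ((l : ℤ) + 1) * D w := by
  classical
  have h5 : D = ∑ P ∈ D.support, D P • Finsupp.single P (1 : ℤ) := by
    conv_lhs => rw [← Finsupp.sum_single D]
    rw [Finsupp.sum]
    refine Finset.sum_congr rfl fun P _ => ?_
    rw [Finsupp.smul_single, smul_eq_mul, mul_one]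
  have h6 : Divisor.correspondence β α hβi hαi D w - ((l : ℤ) + 1) * D w =
      ∑ P ∈ D.support, D P * (Divisor.correspondence β α hβi hαi (Finsupp.single P 1) w -
        ((l : ℤ) + 1) * (Finsupp.single P (1 : ℤ) : Divisor K E) w) := by
    conv_lhs => rw [h5]
    rw [map_sum, Finsupp.finset_sum_apply, Finsupp.finset_sum_apply, Finset.mul_sum,
      ← Finset.sum_sub_distrib]
    refine Finset.sum_congr rfl fun P _ => ?_
    rw [map_zsmul, Finsupp.smul_apply, Finsupp.smul_apply, smul_eq_mul, smul_eq_mul]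
    ring
  rw [h6]
  refine Finset.dvd_sum fun P _ => ?_
  by_cases hP : n ∣ D P
  · exact hP.mul_right _
  · exact (hD P hP w).mul_left _

end Hecke

end Fermat.Agent.LD8

end
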