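import Fermat.Agent.LD8.Abs
import Fermat.Agent.LLw.Efin2

/-!
# The case `p = 3`
-/

set_option autoImplicit false
set_option maxHeartbeats 400000
set_option linter.unusedSectionVars false

noncomputable section

open HahnSeries ModularCurve AlgebraicCurve

attribute [-instance] Fermat.Agent.X0Places.ffField Fermat.Agent.X0Places.ffAlgebra

namespace Fermat.Agent.LD8

open Fermat.Agent.FunField Fermat.Agent.FunField.PlaceLemmas
open Fermat.Agent.MzCusp (uL)
open Fermat.Agent.HeckeRed Fermat.Agent.ModPoly Fermat.Agent.ModDeg Fermat.Agent.Igusa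
  Fermat.Agent.BadRed Fermat.Agent.LLu

section Abs

variable {κ F F' : Type*} [Field κ] [IsAlgClosed κ] [Field F] [Field F'] [Algebra κ F]
  [Algebra κ F'] [IsFF κ F] [IsFF κ F'] (φ : F →ₐ[κ] F')

theorem dvd_of_mul {p : ℕ} (hp : p.Prime) (w : Place κ F') {m : ℤ}
    (h : (p : ℤ) ∣ Place.ramificationIndexAlong φ w * m)
    (h' : ¬ p ∣ Place.ramificationIndexAlong φ w) : (p : ℤ) ∣ m :=
  ((Nat.prime_iff_prime_int.mp hp).dvd_or_dvd h).resolve_left fun h'' =>
    h' (Int.natCast_dvd_natCast.mp h'')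

/-- the case `p ≥ 5` -/
theorem descent_five {p : ℕ} (hp : p.Prime) (hp2 : p ≠ 2) (hp3 : p ≠ 3)
    (hdeg : finrankAlong κ φ = 4 ∨ finrankAlong κ φ = 6) {fb ub j : F} {vb : F'} {j₀ : ℤ}
    (h1 : ∀ w : Place κ F', 0 ≤ w.ord (φ j) → (p : ℤ) ∣ w.ord (φ fb) - j₀ * w.ord vb)
    (h2 : ∀ w : Place κ F', w.ord (φ j) < 0 → (p : ℤ) ∣ w.ord (φ fb))
    (h6 : ∀ w : Place κ F', 0 ≤ w.ord (φ j) → w.ord (φ ub) = 6 * w.ord vb) :
    ∃ j₁ : ℤ, (∀ v : Place κ F, 0 ≤ v.ord j → (p : ℤ) ∣ v.ord fb - j₁ * v.ord ub) ∧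
      ∀ v : Place κ F, v.ord j < 0 → (p : ℤ) ∣ v.ord fb := by
  have hle : ∀ q : ℕ, p ∣ 2 * q → q = 2 ∨ q = 3 → False := by
    intro q h hq
    rcases (Nat.Prime.dvd_mul hp).mp h with h7 | h7
    · have h8 := (Nat.prime_dvd_prime_iff_eq hp Nat.prime_two).mp h7
      exact hp2 h8
    · rcases hq with rfl | rfl
      · exact hp2 ((Nat.prime_dvd_prime_iff_eq hp Nat.prime_two).mp h7)
      · exact hp3 ((Nat.prime_dvd_prime_iff_eq hp Nat.prime_three).mp h7)
  have hnd : ¬ p ∣ finrankAlong κ φ := by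
    rcases hdeg with h | h <;> rw [h] <;> intro hcon
    · exact hle 2 hcon (Or.inl rfl)
    · exact hle 3 hcon (Or.inr rfl)
  have hcop : IsCoprime (6 : ℤ) (p : ℤ) := by
    have h7 : Nat.Coprime 6 p := by
      rw [Nat.coprime_comm]
      exact (Nat.Prime.coprime_iff_not_dvd hp).mpr fun hcon => hle 3 hcon (Or.inr rfl)
    exact_mod_cast Nat.isCoprime_iff_coprime.mpr h7
  obtain ⟨s, t, hst⟩ := hcop
  refine ⟨s * j₀, fun v hv => ?_, fun v hv => ?_⟩
  · obtain ⟨w, rfl, hw'⟩ := exists_res_not_dvd φ hnd v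
    have hw : 0 ≤ w.ord (φ j) := by
      rw [Degen.ord_res]
      exact mul_nonneg (Int.natCast_nonneg _) hv
    have h4 := h1 w hw
    have h5 := h6 w hw
    rw [Degen.ord_res] at h4 h5
    apply dvd_of_mul φ hp w _ hw'
    have e : (Place.ramificationIndexAlong φ w : ℤ) *
          ((Degen.res φ w).ord fb - s * j₀ * (Degen.res φ w).ord ub) =
        s * 6 * (Place.ramificationIndexAlong φ w * (Degen.res φ w).ord fb - j₀ * w.ord vb) +
        p * (t * (Place.ramificationIndexAlong φ w * (Degen.res φ w).ord fb)) := by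
      linear_combination (-s * j₀) * h5 -
        (Place.ramificationIndexAlong φ w * (Degen.res φ w).ord fb) * hst
    rw [e]
    exact dvd_add (h4.mul_left _) (Dvd.intro _ rfl)
  · obtain ⟨w, rfl, hw'⟩ := exists_res_not_dvd φ hnd v
    have he : (0 : ℤ) < Place.ramificationIndexAlong φ w := by
      exact_mod_cast Degen.ramificationIndexAlong_pos φ w
    have h4 := h2 w (by rw [Degen.ord_res]; exact mul_neg_of_pos_of_neg he hv)
    rw [Degen.ord_res] at h4
    exact dvd_of_mul φ hp w h4 hw'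

variable (hdeg : finrankAlong κ φ = 4 ∨ finrankAlong κ φ = 6) {fb ub j : F} {vb : F'} {j₀ : ℤ}

include hdeg in
/-- `p = 3`, `3 ∣ j₀`: the places where the order is not divisible by three -/
theorem descent_three_bad
    (hA : finrankAlong κ φ = 6 → ∀ v : Place κ F, (∀ w : Place κ F', Degen.res φ w = v →
      3 ∣ Place.ramificationIndexAlong φ w) → 0 < v.ord j ∧ ¬ (3 : ℤ) ∣ v.ord j)
    (hall : ∀ w : Place κ F', (3 : ℤ) ∣ w.ord (φ fb)) (v : Place κ F)
    (hv : ¬ (3 : ℤ) ∣ v.ord fb) : 0 < v.ord j ∧ ¬ (3 : ℤ) ∣ v.ord j := by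
  have hv' : ∀ w : Place κ F', Degen.res φ w = v → 3 ∣ Place.ramificationIndexAlong φ w := by
    rintro w rfl
    by_contra hcon
    have h := hall w
    rw [Degen.ord_res] at h
    exact hv (dvd_of_mul φ (p := 3) Nat.prime_three w h hcon)
  refine hA (hdeg.resolve_left fun h4 => ?_) v hv'
  obtain ⟨w, hw, hw'⟩ := exists_res_not_dvd φ (p := 3) (by rw [h4]; norm_num) v
  exact hw' (hv' w hw)

include hdeg in
/-- `p = 3`, `3 ∤ j₀`: the orders of the unit are divisible by three -/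
theorem descent_three_unit
    (hA : finrankAlong κ φ = 6 → ∀ v : Place κ F, (∀ w : Place κ F', Degen.res φ w = v →
      3 ∣ Place.ramificationIndexAlong φ w) → 0 < v.ord j ∧ ¬ (3 : ℤ) ∣ v.ord j)
    (hj₀ : ¬ (3 : ℤ) ∣ j₀) (hubo : ∀ v : Place κ F, v.ord ub = 2 * v.ord j)
    (h1 : ∀ w : Place κ F', 0 ≤ w.ord (φ j) → (3 : ℤ) ∣ w.ord (φ fb) - j₀ * w.ord vb)
    (h6 : ∀ w : Place κ F', 0 ≤ w.ord (φ j) → w.ord (φ ub) = 6 * w.ord vb)
    (hvb : ∀ w : Place κ F', 0 ≤ w.ord (φ j) → w.ord vb = 0 ∨ (1 ≤ w.ord vb ∧ w.ord vb ≤ 2))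
    (v : Place κ F) (hv : 0 ≤ v.ord j) :
    (3 : ℤ) ∣ v.ord ub ∧ (0 < v.ord j → ¬ (3 : ℤ) ∣ v.ord ub / 3) ∧
      (3 : ℤ) ∣ v.ord fb - (-j₀) * (v.ord ub / 3) := by
  have hpZ : Prime (3 : ℤ) := Int.prime_three
  have haff : ∀ w : Place κ F', 0 ≤ (Degen.res φ w).ord j → 0 ≤ w.ord (φ j) := fun w hw => by
    rw [Degen.ord_res]
    exact mul_nonneg (Int.natCast_nonneg _) hw
  rcases eq_or_lt_of_le hv with hv0 | hv0
  · -- `j` does not vanish
    have hub0 : v.ord ub = 0 := by rw [hubo, ← hv0]; rfl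
    rw [hub0]
    refine ⟨dvd_zero _, fun h => absurd h (by omega), ?_⟩
    have e0 : v.ord fb - (-j₀) * (0 / 3) = v.ord fb := by norm_num
    rw [e0]
    by_contra hcon
    have hvw : ∀ w : Place κ F', Degen.res φ w = v → 3 ∣ Place.ramificationIndexAlong φ w := by
      rintro w rfl
      by_contra hcon'
      have hw := haff w hv
      have h4 := h6 w hw
      rw [Degen.ord_res, hub0, mul_zero] at h4
      have h5 := h1 w hw
      have h7 : w.ord vb = 0 := by omega
      rw [h7, mul_zero, sub_zero, Degen.ord_res] at h5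
      exact hcon (dvd_of_mul φ (p := 3) Nat.prime_three w h5 hcon')
    have h6' : finrankAlong κ φ = 6 := by
      refine hdeg.resolve_left fun h4 => ?_
      obtain ⟨w, hw, hw'⟩ := exists_res_not_dvd φ (p := 3) (by rw [h4]; norm_num) v
      exact hw' (hvw w hw)
    have := (hA h6' v hvw).1
    omega
  · -- a node
    obtain ⟨w, rfl, -⟩ : ∃ w : Place κ F', Degen.res φ w = v ∧
        ¬ 7 ∣ Place.ramificationIndexAlong φ w :=
      exists_res_not_dvd φ (p := 7) (by rcases hdeg with h | h <;> rw [h] <;> norm_num) v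
    have hw := haff w hv
    have h4 := h6 w hw
    rw [Degen.ord_res] at h4
    have he : (0 : ℤ) < Place.ramificationIndexAlong φ w := by
      exact_mod_cast Degen.ramificationIndexAlong_pos φ w
    have hvb0 : w.ord vb ≠ 0 := by
      intro h0
      rw [h0, mul_zero, hubo] at h4
      have : (0 : ℤ) < Place.ramificationIndexAlong φ w * (2 * (Degen.res φ w).ord j) := by
        positivity
      omega
    obtain ⟨hw1, hw2⟩ := (hvb w hw).resolve_left hvb0
    have h3vb : ¬ (3 : ℤ) ∣ w.ord vb := by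
      rintro ⟨k, hk⟩
      omega
    have hne : ¬ 3 ∣ Place.ramificationIndexAlong φ w := by
      intro hcon
      have h4 := h1 w hw
      rw [Degen.ord_res] at h4
      have h5 : (3 : ℤ) ∣ Place.ramificationIndexAlong φ w * (Degen.res φ w).ord fb := by
        have : ((3 : ℕ) : ℤ) ∣ Place.ramificationIndexAlong φ w :=
          Int.natCast_dvd_natCast.mpr hcon
        exact this.mul_right _
      have h6 : (3 : ℤ) ∣ j₀ * w.ord vb := (dvd_sub_right h5).mp h4
      rcases hpZ.dvd_or_dvd h6 with h7 | h7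
      · exact hj₀ h7
      · exact h3vb h7
    have h5 : (3 : ℤ) ∣ (Degen.res φ w).ord ub :=
      dvd_of_mul φ (p := 3) Nat.prime_three w
        (by rw [h4]; exact Dvd.intro (2 * w.ord vb) (by push_cast; ring)) hne
    obtain ⟨g, hg⟩ := h5
    rw [hg, Int.mul_ediv_cancel_left _ (by norm_num : (3 : ℤ) ≠ 0)]
    rw [hg] at h4
    have h7 : (Place.ramificationIndexAlong φ w : ℤ) * g = 2 * w.ord vb := by
      linarith
    refine ⟨Dvd.intro _ rfl, fun _ hcon => ?_, ?_⟩
    · have h8 : (3 : ℤ) ∣ 2 * w.ord vb := by rw [← h7]; exact hcon.mul_left _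
      rcases hpZ.dvd_or_dvd h8 with h9 | h9
      · norm_num at h9
      · exact h3vb h9
    · have h8 := h1 w hw
      rw [Degen.ord_res] at h8
      refine dvd_of_mul φ (p := 3) Nat.prime_three w ?_ hne
      have e : (Place.ramificationIndexAlong φ w : ℤ) * ((Degen.res φ w).ord fb - -j₀ * g) =
        (Place.ramificationIndexAlong φ w * (Degen.res φ w).ord fb - j₀ * w.ord vb) +
          3 * (j₀ * w.ord vb) := by linear_combination j₀ * h7
      rw [e]
      exact dvd_add h8 ⟨j₀ * w.ord vb, by push_cast; ring⟩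

end Abs

end Fermat.Agent.LD8

end
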